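import Mathlib

/-!
# CHEB / piece M (helper164): calculus of prime Dirichlet sums up to `O(1)`

`Asymp a c` says: `a : Nat.Primes → ℝ` is bounded and
`∑' p, a p * p ^ (-s) = c * log (1 / (s - 1)) + O(1)` on `(1, 2]`.
-/

set_option autoImplicit false

namespace Fermat.Agent.Lib.Cheb.H164

/-- The prime Dirichlet sum `∑_p a(p) p^{-s}`. -/
noncomputable def pSum (a : Nat.Primes → ℝ) (s : ℝ) : ℝ :=
  ∑' p : Nat.Primes, a p * ((p : ℕ) : ℝ) ^ (-s)

/-- Bounded sequences indexed by primes. -/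
def Bdd (a : Nat.Primes → ℝ) : Prop := ∃ M : ℝ, ∀ p, |a p| ≤ M

theorem Bdd.add {a b : Nat.Primes → ℝ} (ha : Bdd a) (hb : Bdd b) : Bdd (fun p => a p + b p) := by
  obtain ⟨M, hM⟩ := ha
  obtain ⟨N, hN⟩ := hb
  exact ⟨M + N, fun p => (abs_add_le _ _).trans (add_le_add (hM p) (hN p))⟩

theorem Bdd.neg {a : Nat.Primes → ℝ} (ha : Bdd a) : Bdd (fun p => -a p) := by
  obtain ⟨M, hM⟩ := ha
  exact ⟨M, fun p => by simpa using hM p⟩

theorem Bdd.sub {a b : Nat.Primes → ℝ} (ha : Bdd a) (hb : Bdd b) : Bdd (fun p => a p - b p) := by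
  simpa [sub_eq_add_neg] using ha.add hb.neg

theorem Bdd.const_mul {a : Nat.Primes → ℝ} (k : ℝ) (ha : Bdd a) : Bdd (fun p => k * a p) := by
  obtain ⟨M, hM⟩ := ha
  refine ⟨|k| * M, fun p => ?_⟩
  rw [abs_mul]
  exact mul_le_mul_of_nonneg_left (hM p) (abs_nonneg _)

theorem bdd_zero : Bdd (fun _ => (0 : ℝ)) := ⟨0, fun _ => by simp⟩

theorem Bdd.of_abs_le {a b : Nat.Primes → ℝ} (hb : Bdd b) (h : ∀ p, |a p| ≤ |b p|) : Bdd a := by
  obtain ⟨M, hM⟩ := hb
  exact ⟨M, fun p => (h p).trans (hM p)⟩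

theorem summable_of_bdd {a : Nat.Primes → ℝ} (ha : Bdd a) {s : ℝ} (hs : 1 < s) :
    Summable (fun p : Nat.Primes => a p * ((p : ℕ) : ℝ) ^ (-s)) := by
  obtain ⟨M, hM⟩ := ha
  have h1 : Summable (fun p : Nat.Primes => M * ((p : ℕ) : ℝ) ^ (-s)) :=
    (Nat.Primes.summable_rpow.mpr (by linarith)).mul_left M
  refine Summable.of_norm_bounded h1 fun p => ?_
  have hp : (0 : ℝ) ≤ ((p : ℕ) : ℝ) ^ (-s) := Real.rpow_nonneg (Nat.cast_nonneg _) _
  rw [Real.norm_eq_abs, abs_mul, abs_of_nonneg hp]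
  exact mul_le_mul_of_nonneg_right (hM p) hp

theorem pSum_add {a b : Nat.Primes → ℝ} (ha : Bdd a) (hb : Bdd b) {s : ℝ} (hs : 1 < s) :
    pSum (fun p => a p + b p) s = pSum a s + pSum b s := by
  unfold pSum
  rw [← (summable_of_bdd ha hs).tsum_add (summable_of_bdd hb hs)]
  exact tsum_congr fun p => by ring

theorem pSum_const_mul (k : ℝ) (a : Nat.Primes → ℝ) (s : ℝ) :
    pSum (fun p => k * a p) s = k * pSum a s := by
  unfold pSum
  rw [← tsum_mul_left]
  exact tsum_congr fun p => by ring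

theorem pSum_neg (a : Nat.Primes → ℝ) (s : ℝ) : pSum (fun p => -a p) s = -pSum a s := by
  have := pSum_const_mul (-1) a s
  simpa using this

theorem pSum_sub {a b : Nat.Primes → ℝ} (ha : Bdd a) (hb : Bdd b) {s : ℝ} (hs : 1 < s) :
    pSum (fun p => a p - b p) s = pSum a s - pSum b s := by
  have := pSum_add ha hb.neg hs
  simp only [pSum_neg] at this
  simpa [sub_eq_add_neg] using this

/-- `∑_p a(p) p^{-s} = c log (1/(s-1)) + O(1)` on `(1,2]`, for a bounded sequence `a`. -/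
def Asymp (a : Nat.Primes → ℝ) (c : ℝ) : Prop :=
  Bdd a ∧ ∃ C : ℝ, ∀ s : ℝ, 1 < s → s ≤ 2 → |pSum a s - c * Real.log (1 / (s - 1))| ≤ C

theorem Asymp.bdd {a : Nat.Primes → ℝ} {c : ℝ} (h : Asymp a c) : Bdd a := h.1

theorem Asymp.add {a b : Nat.Primes → ℝ} {c d : ℝ} (ha : Asymp a c) (hb : Asymp b d) :
    Asymp (fun p => a p + b p) (c + d) := by
  obtain ⟨hab, C, hC⟩ := ha
  obtain ⟨hbb, D, hD⟩ := hb
  refine ⟨hab.add hbb, C + D, fun s hs hs2 => ?_⟩
  rw [pSum_add hab hbb hs]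
  have e : pSum a s + pSum b s - (c + d) * Real.log (1 / (s - 1)) =
      (pSum a s - c * Real.log (1 / (s - 1))) + (pSum b s - d * Real.log (1 / (s - 1))) := by ring
  rw [e]
  exact (abs_add_le _ _).trans (add_le_add (hC s hs hs2) (hD s hs hs2))

theorem Asymp.const_mul {a : Nat.Primes → ℝ} {c : ℝ} (k : ℝ) (ha : Asymp a c) :
    Asymp (fun p => k * a p) (k * c) := by
  obtain ⟨hab, C, hC⟩ := ha
  refine ⟨hab.const_mul k, |k| * C, fun s hs hs2 => ?_⟩
  rw [pSum_const_mul]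
  have e : k * pSum a s - k * c * Real.log (1 / (s - 1)) =
      k * (pSum a s - c * Real.log (1 / (s - 1))) := by ring
  rw [e, abs_mul]
  exact mul_le_mul_of_nonneg_left (hC s hs hs2) (abs_nonneg _)

theorem Asymp.neg {a : Nat.Primes → ℝ} {c : ℝ} (ha : Asymp a c) :
    Asymp (fun p => -a p) (-c) := by
  simpa using ha.const_mul (-1)

theorem Asymp.sub {a b : Nat.Primes → ℝ} {c d : ℝ} (ha : Asymp a c) (hb : Asymp b d) :
    Asymp (fun p => a p - b p) (c - d) := by
  simpa [sub_eq_add_neg] using ha.add hb.neg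

theorem asymp_zero : Asymp (fun _ => (0 : ℝ)) 0 := by
  refine ⟨bdd_zero, 0, fun s _ _ => ?_⟩
  simp [pSum]

theorem Asymp.congr {a b : Nat.Primes → ℝ} {c d : ℝ} (ha : Asymp a c) (hab : ∀ p, a p = b p)
    (hcd : c = d) : Asymp b d := by
  have : a = b := funext hab
  subst this
  subst hcd
  exact ha

theorem Asymp.sum {ι : Type*} (t : Finset ι) (a : ι → Nat.Primes → ℝ) (c : ι → ℝ)
    (h : ∀ i ∈ t, Asymp (a i) (c i)) :
    Asymp (fun p => ∑ i ∈ t, a i p) (∑ i ∈ t, c i) := by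
  classical
  induction t using Finset.induction_on with
  | empty => simpa using asymp_zero
  | insert i t hi ih =>
    have h1 := h i (Finset.mem_insert_self i t)
    have h2 := ih fun j hj => h j (Finset.mem_insert_of_mem hj)
    refine (h1.add h2).congr (fun p => ?_) ?_
    · rw [Finset.sum_insert hi]
    · rw [Finset.sum_insert hi]

/-- A sequence supported on a finite set of primes is `O(1)`. -/
theorem asymp_of_finite_support (a : Nat.Primes → ℝ) (T : Finset Nat.Primes)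
    (hT : ∀ p, p ∉ T → a p = 0) : Asymp a 0 := by
  classical
  have hb : Bdd a := by
    refine ⟨∑ p ∈ T, |a p|, fun p => ?_⟩
    by_cases hp : p ∈ T
    · exact Finset.single_le_sum (f := fun p => |a p|) (fun q _ => abs_nonneg _) hp
    · rw [hT p hp, abs_zero]
      exact Finset.sum_nonneg fun q _ => abs_nonneg _
  refine ⟨hb, ∑ p ∈ T, |a p|, fun s hs _ => ?_⟩
  have e : pSum a s = ∑ p ∈ T, a p * ((p : ℕ) : ℝ) ^ (-s) := by
    unfold pSum
    exact tsum_eq_sum fun p hp => by rw [hT p hp, zero_mul]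
  rw [e, zero_mul, sub_zero]
  refine (Finset.abs_sum_le_sum_abs _ _).trans (Finset.sum_le_sum fun p _ => ?_)
  have hp1 : (1 : ℝ) ≤ ((p : ℕ) : ℝ) := by exact_mod_cast p.2.one_lt.le
  have hp0 : (0 : ℝ) ≤ ((p : ℕ) : ℝ) ^ (-s) := Real.rpow_nonneg (by linarith) _
  have hp2 : ((p : ℕ) : ℝ) ^ (-s) ≤ 1 :=
    Real.rpow_le_one_of_one_le_of_nonpos hp1 (by linarith)
  rw [abs_mul, abs_of_nonneg hp0]
  calc |a p| * ((p : ℕ) : ℝ) ^ (-s) ≤ |a p| * 1 :=
        mul_le_mul_of_nonneg_left hp2 (abs_nonneg _)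
    _ = |a p| := mul_one _

/-- Changing a sequence on a finite set of primes does not change its asymptotics. -/
theorem Asymp.congr_off_finite {a b : Nat.Primes → ℝ} {c : ℝ} (ha : Asymp a c)
    (T : Finset Nat.Primes) (hT : ∀ p, p ∉ T → a p = b p) : Asymp b c := by
  have h0 : Asymp (fun p => b p - a p) 0 :=
    asymp_of_finite_support _ T fun p hp => by rw [hT p hp, sub_self]
  refine (ha.add h0).congr (fun p => by ring) (by ring)

/-- A sequence with positive asymptotic constant does not vanish identically. -/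
theorem Asymp.exists_ne_zero {a : Nat.Primes → ℝ} {c : ℝ} (ha : Asymp a c) (hc : 0 < c) :
    ∃ p, a p ≠ 0 := by
  by_contra hne
  push Not at hne
  obtain ⟨-, C, hC⟩ := ha
  have hC0 : 0 ≤ C := (abs_nonneg _).trans (hC 2 (by norm_num) le_rfl)
  set t : ℝ := C / c + 1 with ht
  have ht0 : 0 < t := by positivity
  set s : ℝ := 1 + Real.exp (-t) with hs
  have hs1 : 1 < s := by
    have := Real.exp_pos (-t)
    linarith
  have hs2 : s ≤ 2 := by
    have : Real.exp (-t) ≤ 1 := Real.exp_le_one_iff.mpr (by linarith)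
    linarith
  have hlog : Real.log (1 / (s - 1)) = t := by
    have : s - 1 = Real.exp (-t) := by rw [hs]; ring
    rw [this, one_div, ← Real.exp_neg, neg_neg, Real.log_exp]
  have hp : pSum a s = 0 := by
    unfold pSum
    simp [hne]
  have := hC s hs1 hs2
  rw [hp, hlog, zero_sub, abs_neg, abs_of_pos (mul_pos hc ht0)] at this
  have e : c * t = C + c := by
    rw [ht]
    field_simp
  rw [e] at this
  linarith

end Fermat.Agent.Lib.Cheb.H164
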