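import Mathlib
import Fermat.Agent.Lib.Cheb.Spec

/-!
# CHEB / piece M (helper164): combinatorics of decomposition groups above a rational prime
-/

set_option autoImplicit false
set_option linter.unusedSectionVars false

open NumberField
open scoped Pointwise

namespace Fermat.Agent.Lib.Cheb.H164

open Fermat.Agent.Lib.Cheb.Spec

section

theorem isMaximal_span_natCast {p : ℕ} (hp : p.Prime) :
    (Ideal.span {(p : ℤ)}).IsMaximal :=
  PrincipalIdealRing.isMaximal_of_irreducible
    (Int.prime_iff_natAbs_prime.mpr (by simpa using hp)).irreducible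

variable (L : Type) [Field L] [NumberField L]

/-- A prime ideal of `𝓞 L` containing the rational prime `p` lies over `(p)`. -/
theorem liesOver_of_mem {p : ℕ} (hp : p.Prime) {P : Ideal (𝓞 L)} (hP : P.IsPrime)
    (hpP : (p : 𝓞 L) ∈ P) : P.LiesOver (Ideal.span {(p : ℤ)}) := by
  constructor
  have hmax : (Ideal.span {(p : ℤ)}).IsMaximal := isMaximal_span_natCast hp
  have hle : Ideal.span {(p : ℤ)} ≤ P.under ℤ := by
    rw [Ideal.span_le, Set.singleton_subset_iff]
    change algebraMap ℤ (𝓞 L) (p : ℤ) ∈ P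
    simpa using hpP
  have hne : P.under ℤ ≠ ⊤ := (Ideal.IsPrime.under ℤ P).ne_top
  exact hmax.eq_of_le hne hle

/-- The set of primes of `𝓞 L` above a rational prime is finite. -/
theorem finite_primesAbove {p : ℕ} (hp : p.Prime) :
    {P : Ideal (𝓞 L) | P.IsPrime ∧ (p : 𝓞 L) ∈ P}.Finite := by
  have : (Ideal.span {(p : ℤ)}).IsMaximal := isMaximal_span_natCast hp
  refine (IsDedekindDomain.primesOver_finite (Ideal.span {(p : ℤ)}) (𝓞 L)).subset ?_
  rintro P ⟨hP, hpP⟩
  exact ⟨hP, liesOver_of_mem L hp hP hpP⟩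

open Classical in
/-- The finset of primes of `𝓞 L` above `p` (empty if `p` is not prime). -/
noncomputable def primesAbove (p : ℕ) : Finset (Ideal (𝓞 L)) :=
  if hp : p.Prime then (finite_primesAbove L hp).toFinset else ∅

theorem mem_primesAbove {p : ℕ} (hp : p.Prime) {P : Ideal (𝓞 L)} :
    P ∈ primesAbove L p ↔ P.IsPrime ∧ (p : 𝓞 L) ∈ P := by
  simp [primesAbove, hp]

open Classical in
/-- `|Y| · #{P ∣ p : D_P = Y}`. -/
noncomputable def vCount (Y : Subgroup (L ≃ₐ[ℚ] L)) (p : ℕ) : ℕ :=
  ((primesAbove L p).filter fun P => decomp L P = Y).card * Nat.card Y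

open Classical in
theorem decompWeight_eq_sum {p : ℕ} (hp : p.Prime) (H : Subgroup (L ≃ₐ[ℚ] L)) :
    decompWeight L H p =
      ∑ P ∈ (primesAbove L p).filter (fun P => decomp L P ≤ H), Nat.card (decomp L P) := by
  unfold decompWeight
  have hfin : (primesLe L H p).Finite :=
    (finite_primesAbove L hp).subset fun P hP => ⟨hP.1, hP.2.1⟩
  rw [finsum_set_coe_eq_finsum_mem (primesLe L H p) (f := fun P => Nat.card (decomp L P)),
    finsum_mem_eq_finite_toFinset_sum _ hfin]
  refine Finset.sum_congr ?_ fun _ _ => rfl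
  ext P
  simp only [Set.Finite.mem_toFinset, Finset.mem_filter, mem_primesAbove L hp]
  constructor
  · rintro ⟨h1, h2, h3⟩
    exact ⟨⟨h1, h2⟩, h3⟩
  · rintro ⟨⟨h1, h2⟩, h3⟩
    exact ⟨h1, h2, h3⟩

open Classical in
/-- `decompWeight` is the sum of the `vCount`s over subgroups of `H`. -/
theorem decompWeight_eq_sum_vCount {p : ℕ} (hp : p.Prime) (H : Subgroup (L ≃ₐ[ℚ] L)) :
    decompWeight L H p =
      ∑ Y ∈ (Finset.univ : Finset (Subgroup (L ≃ₐ[ℚ] L))).filter (fun Y => Y ≤ H),
        vCount L Y p := by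
  rw [decompWeight_eq_sum L hp]
  rw [← Finset.sum_fiberwise_of_maps_to (g := fun P => decomp L P)
    (t := (Finset.univ : Finset (Subgroup (L ≃ₐ[ℚ] L))).filter (fun Y => Y ≤ H))
    (fun P hP => by
      simp only [Finset.mem_filter, Finset.mem_univ, true_and]
      exact (Finset.mem_filter.mp hP).2)]
  refine Finset.sum_congr rfl fun Y hY => ?_
  have hYH : Y ≤ H := (Finset.mem_filter.mp hY).2
  unfold vCount
  rw [Finset.card_eq_sum_ones, Finset.sum_mul]
  have e : ((primesAbove L p).filter (fun P => decomp L P ≤ H)).filter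
      (fun P => decomp L P = Y) = (primesAbove L p).filter (fun P => decomp L P = Y) := by
    ext P
    simp only [Finset.mem_filter]
    constructor
    · rintro ⟨⟨h1, -⟩, h3⟩
      exact ⟨h1, h3⟩
    · rintro ⟨h1, h3⟩
      exact ⟨⟨h1, h3 ▸ hYH⟩, h3⟩
  rw [e]
  refine Finset.sum_congr rfl fun P hP => ?_
  rw [(Finset.mem_filter.mp hP).2, one_mul]

open Classical in
/-- Number of generators of the subgroup `Y` (zero unless `Y` is cyclic). -/
noncomputable def genCount (Y : Subgroup (L ≃ₐ[ℚ] L)) : ℕ :=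
  ((Finset.univ : Finset (L ≃ₐ[ℚ] L)).filter fun y => Subgroup.zpowers y = Y).card

open Classical in
theorem card_eq_sum_genCount (H : Subgroup (L ≃ₐ[ℚ] L)) :
    Nat.card H =
      ∑ Y ∈ (Finset.univ : Finset (Subgroup (L ≃ₐ[ℚ] L))).filter (fun Y => Y ≤ H),
        genCount L Y := by
  have h1 : Nat.card H = ((Finset.univ : Finset (L ≃ₐ[ℚ] L)).filter fun y => y ∈ H).card := by
    rw [Nat.card_eq_fintype_card, Fintype.card_subtype]
  rw [h1, Finset.card_eq_sum_ones]
  rw [← Finset.sum_fiberwise_of_maps_to (g := fun y => Subgroup.zpowers y)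
    (t := (Finset.univ : Finset (Subgroup (L ≃ₐ[ℚ] L))).filter (fun Y => Y ≤ H))
    (fun y hy => by
      simp only [Finset.mem_filter, Finset.mem_univ, true_and] at hy ⊢
      exact (Subgroup.zpowers_le).mpr hy)]
  refine Finset.sum_congr rfl fun Y hY => ?_
  have hYH : Y ≤ H := (Finset.mem_filter.mp hY).2
  unfold genCount
  rw [Finset.card_eq_sum_ones]
  refine Finset.sum_congr ?_ fun _ _ => rfl
  ext y
  simp only [Finset.mem_filter, Finset.mem_univ, true_and]
  constructor
  · rintro ⟨-, h⟩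
    exact h
  · intro h
    exact ⟨hYH (h ▸ Subgroup.mem_zpowers y), h⟩

theorem genCount_zpowers_pos (σ : L ≃ₐ[ℚ] L) : 0 < genCount L (Subgroup.zpowers σ) := by
  classical
  unfold genCount
  exact Finset.card_pos.mpr ⟨σ, by simp⟩

end

end Fermat.Agent.Lib.Cheb.H164
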