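import Mathlib
import Fermat.Agent.Lib.Cheb.Spec
import Fermat.Agent.Lib.Cheb.H164.Comb

/-!
# CHEB / Tier 2 / CYC, piece ALG (helper164)

The algebraic input of the cyclotomic case of Chebotarev (skeleton of helper221,
`coord/CHEB-CYC.md`): in a Galois number field `L ∋ ζ_m` with `⟨g⟩` acting faithfully on `ζ`,
and `M = L^⟨g⟩`, `a = autToPow g`:

* ORD   `|⟨a⟩| = ord g`;
* SUPP  a prime `p` (outside a finite set) with a degree-one prime of `M` above it is in `⟨a⟩ mod m`;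
* SPLIT `primeCount L p = ord g * primeCount M p` if `p ≡ 1 (m)`, `= 0` otherwise;
* NT    `χ(a) ≠ 1 ⇒` some ideal `I` of `𝓞 M` has `χ(N I) ∉ {0, 1}`;
* FIN   `primeCount M p ≠ 0`, `p ≡ a (m)` `⇒` `g` is an arithmetic Frobenius above `p`.

Inputs: the Spec statements (A) `CountStatement`, (D) `FrobStatement`, (M) `FrobFiniteStatement`
as black boxes.
-/

set_option autoImplicit false
set_option linter.unusedSectionVars false

open NumberField
open scoped Pointwise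

namespace Fermat.Agent.Lib.Cheb.H164

open Fermat.Agent.Lib.Cheb.Spec

/-- (ALG) the algebraic input of CYC, in the situation of `Spec.CycStatement`
(verbatim `H221.CycAlgStatement`, with the abbreviations `fixM`, `fixBot` unfolded). -/
def CycAlgStatement : Prop :=
  Spec.CountStatement → Spec.FrobStatement → Spec.FrobFiniteStatement →
  ∀ (L : Type) [Field L] [NumberField L] [IsGalois ℚ L] (m : ℕ) [NeZero m] (ζ : L)
    (hζ : IsPrimitiveRoot ζ m) (g : L ≃ₐ[ℚ] L), (∀ k : ℕ, (g ^ k) ζ = ζ → g ^ k = 1) →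
    Nat.card (Subgroup.zpowers (hζ.autToPow ℚ g)) = orderOf g ∧
    ∃ B : Finset ℕ,
      -- (SUPP)
      (∀ p : ℕ, p.Prime → p ∉ B →
        Spec.primeCount (IntermediateField.fixedField (Subgroup.zpowers g)) p ≠ 0 →
        ∃ u ∈ Subgroup.zpowers (hζ.autToPow ℚ g), ((u : (ZMod m)ˣ) : ZMod m) = (p : ZMod m)) ∧
      -- (SPLIT)
      (∀ p : ℕ, p.Prime → p ∉ B →
        Spec.primeCount (IntermediateField.fixedField (⊥ : Subgroup (L ≃ₐ[ℚ] L))) p =
          if (p : ZMod m) = 1 then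
            orderOf g * Spec.primeCount (IntermediateField.fixedField (Subgroup.zpowers g)) p
          else 0) ∧
      -- (NT)
      (∀ χ : DirichletCharacter ℂ m, χ ((hζ.autToPow ℚ g : (ZMod m)ˣ) : ZMod m) ≠ 1 →
        ∃ I : Ideal (𝓞 (IntermediateField.fixedField (Subgroup.zpowers g))),
          χ (Ideal.absNorm I : ZMod m) ≠ 0 ∧ χ (Ideal.absNorm I : ZMod m) ≠ 1) ∧
      -- (FIN)
      (∀ p : ℕ, p.Prime → p ∉ B →
        Spec.primeCount (IntermediateField.fixedField (Subgroup.zpowers g)) p ≠ 0 →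
        (p : ZMod m) = ((hζ.autToPow ℚ g : (ZMod m)ˣ) : ZMod m) →
        ∃ P : Ideal (𝓞 L), P.IsPrime ∧ (p : 𝓞 L) ∈ P ∧ Spec.InertiaTrivial L P ∧
          IsArithFrobAt ℤ g P)

section

variable {L : Type} [Field L] [NumberField L]

/-- `#(ℤ / (P ∩ ℤ)) = p` for a prime `P` above `p`. -/
theorem natCard_quot_under {p : ℕ} (hp : p.Prime) {P : Ideal (𝓞 L)} (hP : P.IsPrime)
    (hpP : (p : 𝓞 L) ∈ P) : Nat.card (ℤ ⧸ P.under ℤ) = p := by
  have h := (liesOver_of_mem L hp hP hpP).over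
  rw [← h, Nat.card_congr (Int.quotientSpanNatEquivZMod p).toEquiv]
  have : NeZero p := ⟨hp.ne_zero⟩
  exact Nat.card_zmod p

/-- A natural number prime to `p` is not in a prime above `p`. -/
theorem natCast_notMem_of_not_dvd {p m : ℕ} (hp : p.Prime) (hpm : ¬ p ∣ m) {P : Ideal (𝓞 L)}
    (hP : P.IsPrime) (hpP : (p : 𝓞 L) ∈ P) : (m : 𝓞 L) ∉ P := by
  intro hm
  have hcop : Nat.Coprime p m := (Nat.Prime.coprime_iff_not_dvd hp).mpr hpm
  have h1 : ((Nat.gcd p m : ℤ) : 𝓞 L) ∈ P := by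
    rw [Nat.gcd_eq_gcd_ab]
    push_cast
    exact P.add_mem (P.mul_mem_right _ hpP) (P.mul_mem_right _ hm)
  rw [hcop.gcd_eq_one] at h1
  exact hP.ne_top ((Ideal.eq_top_iff_one P).mpr (by simpa using h1))

variable {m : ℕ} [NeZero m] {ζ : L} (hζ : IsPrimitiveRoot ζ m)

include hζ in
/-- A Frobenius above `p ∤ m` raises `ζ_m` to the `p`-th power. -/
theorem frob_apply_root {p : ℕ} (hp : p.Prime) (hpm : ¬ p ∣ m) {P : Ideal (𝓞 L)}
    (hP : P.IsPrime) (hpP : (p : 𝓞 L) ∈ P) {τ : L ≃ₐ[ℚ] L} (hτ : IsArithFrobAt ℤ τ P) :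
    τ ζ = ζ ^ p := by
  have hmP : (m : 𝓞 L) ∉ P := natCast_notMem_of_not_dvd hp hpm hP hpP
  have hc : (algebraMap (𝓞 L) L) hζ.toInteger = ζ := rfl
  have hζ' : (hζ.toInteger) ^ m = 1 := by
    apply RingOfIntegers.ext
    change (algebraMap (𝓞 L) L) (hζ.toInteger ^ m) = (algebraMap (𝓞 L) L) 1
    rw [map_pow, map_one, hc]
    exact hζ.pow_eq_one
  have h := AlgHom.IsArithFrobAt.apply_of_pow_eq_one hτ hζ' hmP
  rw [natCard_quot_under hp hP hpP] at h
  have h2 := congrArg (algebraMap (𝓞 L) L) h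
  rw [map_pow, hc] at h2
  exact h2

/-- `ζ ^ (u : ZMod m).val` only depends on ... : the action on `ζ` determines `autToPow`. -/
theorem autToPow_eq_of_apply {h : L ≃ₐ[ℚ] L} {k : ℕ} (hk : h ζ = ζ ^ k) :
    ((hζ.autToPow ℚ h : (ZMod m)ˣ) : ZMod m) = (k : ZMod m) := by
  have h1 := hζ.autToPow_spec ℚ h
  rw [hk, ← pow_mod_orderOf ζ k, ← hζ.eq_orderOf] at h1
  have h2 : ((hζ.autToPow ℚ h : (ZMod m)ˣ) : ZMod m).val = k % m :=
    hζ.pow_inj (ZMod.val_lt _) (Nat.mod_lt _ (NeZero.pos m)) h1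
  rw [← ZMod.natCast_zmod_val ((hζ.autToPow ℚ h : (ZMod m)ˣ) : ZMod m), h2, ZMod.natCast_mod]

theorem apply_eq_of_autToPow_eq {h h' : L ≃ₐ[ℚ] L}
    (e : hζ.autToPow ℚ h = hζ.autToPow ℚ h') : h ζ = h' ζ := by
  rw [← hζ.autToPow_spec ℚ h, ← hζ.autToPow_spec ℚ h', e]

theorem apply_eq_self_of_autToPow_eq_one {h : L ≃ₐ[ℚ] L}
    (e : hζ.autToPow ℚ h = 1) : h ζ = ζ := by
  have := apply_eq_of_autToPow_eq hζ (h := h) (h' := 1) (by rw [e, map_one])
  simpa using this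

theorem autToPow_frob {p : ℕ} (hp : p.Prime) (hpm : ¬ p ∣ m) {P : Ideal (𝓞 L)}
    (hP : P.IsPrime) (hpP : (p : 𝓞 L) ∈ P) {τ : L ≃ₐ[ℚ] L} (hτ : IsArithFrobAt ℤ τ P) :
    ((hζ.autToPow ℚ τ : (ZMod m)ˣ) : ZMod m) = (p : ZMod m) :=
  autToPow_eq_of_apply hζ (frob_apply_root hζ hp hpm hP hpP hτ)

end

section faithful

variable {L : Type} [Field L] [NumberField L] [IsGalois ℚ L]
variable {m : ℕ} [NeZero m] {ζ : L} (hζ : IsPrimitiveRoot ζ m) {g : L ≃ₐ[ℚ] L}
  (hg : ∀ k : ℕ, (g ^ k) ζ = ζ → g ^ k = 1)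

include hg in
theorem eq_one_of_mem_zpowers_of_fix {h : L ≃ₐ[ℚ] L} (hh : h ∈ Subgroup.zpowers g)
    (hfix : h ζ = ζ) : h = 1 := by
  obtain ⟨k, rfl⟩ := mem_powers_iff_mem_zpowers.mpr hh
  exact hg k hfix

include hg in
theorem eq_of_mem_zpowers_of_apply_eq {h h' : L ≃ₐ[ℚ] L} (hh : h ∈ Subgroup.zpowers g)
    (hh' : h' ∈ Subgroup.zpowers g) (e : h ζ = h' ζ) : h = h' := by
  have h1 : h'⁻¹ * h = 1 :=
    eq_one_of_mem_zpowers_of_fix hg (Subgroup.mul_mem _ (Subgroup.inv_mem _ hh') hh) (by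
      rw [AlgEquiv.mul_apply, e]
      exact h'.symm_apply_apply ζ)
  exact (inv_mul_eq_one.mp h1).symm

include hg in
theorem orderOf_autToPow_eq : orderOf (hζ.autToPow ℚ g) = orderOf g := by
  apply Nat.dvd_antisymm
  · exact orderOf_map_dvd _ g
  · rw [orderOf_dvd_iff_pow_eq_one]
    apply hg
    apply apply_eq_self_of_autToPow_eq_one hζ
    rw [map_pow, pow_orderOf_eq_one]

theorem autToPow_mem_zpowers {h : L ≃ₐ[ℚ] L} (hh : h ∈ Subgroup.zpowers g) :
    hζ.autToPow ℚ h ∈ Subgroup.zpowers (hζ.autToPow ℚ g) := by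
  obtain ⟨k, rfl⟩ := Subgroup.mem_zpowers_iff.mp hh
  rw [map_zpow]
  exact Subgroup.zpow_mem_zpowers _ k

/-- Two Frobenius elements at a prime with trivial inertia coincide. -/
theorem frob_unique {P : Ideal (𝓞 L)} (hI : InertiaTrivial L P) {τ τ' : L ≃ₐ[ℚ] L}
    (h : IsArithFrobAt ℤ τ P) (h' : IsArithFrobAt ℤ τ' P) : τ = τ' := by
  have h1 := IsArithFrobAt.mul_inv_mem_inertia h h'
  have h2 : τ * τ'⁻¹ = 1 := hI _ (fun x => h1 x)
  exact mul_inv_eq_one.mp h2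

/-- If the counting identity (A) holds at `p` and `L^H` has a prime of norm `p`, there is a prime
of `L` above `p` with decomposition group in `H`. -/
theorem exists_mem_primesLe {H : Subgroup (L ≃ₐ[ℚ] L)} {p : ℕ}
    (hcount : primeCount (IntermediateField.fixedField H) p * Nat.card H = decompWeight L H p)
    (hne : primeCount (IntermediateField.fixedField H) p ≠ 0) :
    ∃ P : Ideal (𝓞 L), P.IsPrime ∧ (p : 𝓞 L) ∈ P ∧ decomp L P ≤ H := by
  by_contra hcon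
  have hempty : IsEmpty (primesLe L H p) := by
    constructor
    rintro ⟨P, hP⟩
    exact hcon ⟨P, hP⟩
  have h0 : decompWeight L H p = 0 := by
    unfold decompWeight
    exact finsum_of_isEmpty _
  rw [h0] at hcount
  have hH : Nat.card H ≠ 0 := Nat.card_pos.ne'
  exact (Nat.mul_ne_zero hne hH) hcount

open Classical in
/-- Conversely, a prime of `L` above `p` with decomposition group in `H` forces a prime of norm
`p` in `L^H` (given the counting identity (A) at `p`). -/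
theorem primeCount_ne_zero_of_mem {H : Subgroup (L ≃ₐ[ℚ] L)} {p : ℕ} (hp : p.Prime)
    (hcount : primeCount (IntermediateField.fixedField H) p * Nat.card H = decompWeight L H p)
    {P : Ideal (𝓞 L)} (hP : P.IsPrime) (hpP : (p : 𝓞 L) ∈ P) (hle : decomp L P ≤ H) :
    primeCount (IntermediateField.fixedField H) p ≠ 0 := by
  intro h0
  rw [h0, zero_mul, decompWeight_eq_sum L hp] at hcount
  have hmem : P ∈ (primesAbove L p).filter (fun P => decomp L P ≤ H) := by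
    rw [Finset.mem_filter, mem_primesAbove L hp]
    exact ⟨⟨hP, hpP⟩, hle⟩
  have := (Finset.sum_eq_zero_iff.mp hcount.symm) P hmem
  exact (Nat.card_pos (α := decomp L P)).ne' this

end faithful

/-- **(ALG)**: the algebraic input of the cyclotomic case, from (A), (D), (M). -/
theorem cycAlg : CycAlgStatement := by
  intro hC hD hM L _ _ _ m _ ζ hζ g hg
  refine ⟨by rw [Nat.card_zpowers]; exact orderOf_autToPow_eq hζ hg, ?_⟩
  obtain ⟨Bg, hBg⟩ := hC L (Subgroup.zpowers g)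
  obtain ⟨Bb, hBb⟩ := hC L (⊥ : Subgroup (L ≃ₐ[ℚ] L))
  obtain ⟨Bd, hBd⟩ := hD L
  have hm0 : m ≠ 0 := NeZero.ne m
  -- unpacking `p ∉ B`
  have hB : ∀ p : ℕ, p.Prime → p ∉ Bg ∪ Bb ∪ Bd ∪ m.primeFactors →
      p ∉ Bg ∧ p ∉ Bb ∧ p ∉ Bd ∧ ¬ p ∣ m := by
    intro p hp hpB
    simp only [Finset.mem_union, not_or] at hpB
    refine ⟨hpB.1.1.1, hpB.1.1.2, hpB.1.2, fun hdvd => hpB.2 ?_⟩
    exact Nat.mem_primeFactors.mpr ⟨hp, hdvd, hm0⟩
  -- the Frobenius above a good prime with decomposition group in `⟨g⟩`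
  have key : ∀ p : ℕ, p.Prime → p ∉ Bd → ¬ p ∣ m → ∀ (H : Subgroup (L ≃ₐ[ℚ] L))
      (P : Ideal (𝓞 L)), P.IsPrime → (p : 𝓞 L) ∈ P → decomp L P ≤ H →
      InertiaTrivial L P ∧ ∃ τ : L ≃ₐ[ℚ] L, IsArithFrobAt ℤ τ P ∧
        decomp L P = Subgroup.zpowers τ ∧ τ ∈ H ∧
        ((hζ.autToPow ℚ τ : (ZMod m)ˣ) : ZMod m) = (p : ZMod m) := by
    intro p hp hpd hpm H P hP hpP hle
    obtain ⟨hI, τ, hτ, hDeq⟩ := hBd p hp hpd P hP hpP
    refine ⟨hI, τ, hτ, hDeq, hle ?_, autToPow_frob hζ hp hpm hP hpP hτ⟩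
    rw [hDeq]
    exact Subgroup.mem_zpowers τ
  refine ⟨Bg ∪ Bb ∪ Bd ∪ m.primeFactors, ?_, ?_, ?_, ?_⟩
  · -- (SUPP)
    intro p hp hpB hne
    obtain ⟨hpg, -, hpd, hpm⟩ := hB p hp hpB
    obtain ⟨P, hP, hpP, hle⟩ := exists_mem_primesLe (hBg p hp hpg) hne
    obtain ⟨-, τ, -, -, hτg, hτp⟩ := key p hp hpd hpm _ P hP hpP hle
    exact ⟨hζ.autToPow ℚ τ, autToPow_mem_zpowers hζ hτg, hτp⟩
  · -- (SPLIT)
    intro p hp hpB
    obtain ⟨hpg, hpb, hpd, hpm⟩ := hB p hp hpB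
    have e1 : primeCount (IntermediateField.fixedField (⊥ : Subgroup (L ≃ₐ[ℚ] L))) p =
        decompWeight L ⊥ p := by
      have := hBb p hp hpb
      rwa [Subgroup.card_bot, mul_one] at this
    have e2 : primeCount (IntermediateField.fixedField (Subgroup.zpowers g)) p * orderOf g =
        decompWeight L (Subgroup.zpowers g) p := by
      have := hBg p hp hpg
      rwa [Nat.card_zpowers] at this
    split_ifs with h1
    · have hset : primesLe L (Subgroup.zpowers g) p = primesLe L ⊥ p := by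
        ext P
        constructor
        · rintro ⟨hP, hpP, hle⟩
          obtain ⟨-, τ, -, hDeq, hτg, hτp⟩ := key p hp hpd hpm _ P hP hpP hle
          have hτ1 : τ = 1 := by
            refine eq_one_of_mem_zpowers_of_fix hg hτg ?_
            apply apply_eq_self_of_autToPow_eq_one hζ
            apply Units.ext
            rw [hτp, h1]
            rfl
          refine ⟨hP, hpP, ?_⟩
          rw [hDeq, hτ1, Subgroup.zpowers_one_eq_bot]
        · rintro ⟨hP, hpP, hle⟩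
          exact ⟨hP, hpP, hle.trans bot_le⟩
      have e3 : decompWeight L (Subgroup.zpowers g) p = decompWeight L ⊥ p := by
        unfold decompWeight
        rw [hset]
      rw [e1, ← e3, ← e2, mul_comm]
    · by_contra hne
      obtain ⟨P, hP, hpP, hle⟩ := exists_mem_primesLe (hBb p hp hpb) hne
      obtain ⟨-, τ, -, -, hτb, hτp⟩ := key p hp hpd hpm _ P hP hpP hle
      have hτ1 : τ = 1 := Subgroup.mem_bot.mp hτb
      apply h1
      rw [← hτp, hτ1, map_one]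
      rfl
  · -- (NT)
    intro χ hχ
    obtain ⟨p, P, τ, hp, hpS, hP, hpP, hI, hτ, hz⟩ := hM L g (Bg ∪ Bb ∪ Bd ∪ m.primeFactors)
    obtain ⟨hpg, -, hpd, hpm⟩ := hB p hp hpS
    obtain ⟨-, τ', hτ', hDeq⟩ := hBd p hp hpd P hP hpP
    have hττ' : τ' = τ := frob_unique hI hτ' hτ
    rw [hττ', hz] at hDeq
    have hc : primeCount (IntermediateField.fixedField (Subgroup.zpowers g)) p ≠ 0 :=
      primeCount_ne_zero_of_mem hp (hBg p hp hpg) hP hpP hDeq.le
    obtain ⟨⟨𝔮, -, hN⟩⟩ := (Nat.card_ne_zero.mp hc).1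
    have hτp := autToPow_frob hζ hp hpm hP hpP hτ
    refine ⟨𝔮, ?_, ?_⟩
    · rw [hN, ← hτp]
      exact ((Units.isUnit _).map χ).ne_zero
    · rw [hN, ← hτp]
      intro h1
      apply hχ
      have hgτ : g ∈ Subgroup.zpowers τ := by
        rw [hz]
        exact Subgroup.mem_zpowers g
      obtain ⟨k, rfl⟩ := mem_powers_iff_mem_zpowers.mpr hgτ
      rw [map_pow, Units.val_pow_eq_pow_val, map_pow, h1, one_pow]
  · -- (FIN)
    intro p hp hpB hne hpa
    obtain ⟨hpg, -, hpd, hpm⟩ := hB p hp hpB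
    obtain ⟨P, hP, hpP, hle⟩ := exists_mem_primesLe (hBg p hp hpg) hne
    obtain ⟨hI, τ, hτ, -, hτg, hτp⟩ := key p hp hpd hpm _ P hP hpP hle
    have hτeq : τ = g := by
      refine eq_of_mem_zpowers_of_apply_eq hg hτg (Subgroup.mem_zpowers g) ?_
      apply apply_eq_of_autToPow_eq hζ
      apply Units.ext
      rw [hτp, hpa]
    exact ⟨P, hP, hpP, hI, hτeq ▸ hτ⟩

end Fermat.Agent.Lib.Cheb.H164
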