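import Mathlib
import Fermat.Agent.Lib.Cheb.Spec
import Fermat.Agent.Lib.Cheb.H164.Asymp
import Fermat.Agent.Lib.Cheb.H164.Comb

/-!
# CHEB / piece M (helper164): the finite-level Frobenius density theorem from Z, B0, A, D

`frobFinite_of : PrimeSumStatement → PrimeCountBoundStatement → CountStatement → FrobStatement →
FrobFiniteStatement`.

For a subgroup `Y` of `G = Gal(L/ℚ)` put `v_Y(p) = |Y| · #{P ∣ p : D_P = Y}`.  By (A) and (Z),
`∑_{Y ≤ H} v_Y ≈ |H| log (1/(s-1))` for every `H`; since `|H| = ∑_{Y ≤ H} ψ(Y)` with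
`ψ(Y) = #{y : ⟨y⟩ = Y}`, induction over subgroups gives `v_Y ≈ ψ(Y) log (1/(s-1))`.  For
`Y = ⟨σ⟩` the constant is positive, so `v_Y(p) ≠ 0` for some `p` outside any finite set.
-/

set_option autoImplicit false

open NumberField
open scoped Pointwise

namespace Fermat.Agent.Lib.Cheb.H164

open Fermat.Agent.Lib.Cheb.Spec

theorem asymp_primeCount (hZ : PrimeSumStatement) (hB0 : PrimeCountBoundStatement)
    (F : Type) [Field F] [NumberField F] :
    Asymp (fun p : Nat.Primes => (primeCount F (p : ℕ) : ℝ)) 1 := by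
  obtain ⟨C, hC⟩ := hZ F
  refine ⟨⟨(Module.finrank ℚ F : ℝ), fun p => ?_⟩, C, fun s hs hs2 => ?_⟩
  · have h := hB0 F (p : ℕ)
    have h' : ((primeCount F (p : ℕ) : ℕ) : ℝ) ≤ (Module.finrank ℚ F : ℝ) := by exact_mod_cast h
    show |((primeCount F (p : ℕ) : ℕ) : ℝ)| ≤ _
    rw [abs_of_nonneg (Nat.cast_nonneg _)]
    exact h'
  · rw [one_mul]
    exact hC s hs hs2

theorem frobFinite_of (hZ : PrimeSumStatement) (hB0 : PrimeCountBoundStatement)
    (hA : CountStatement) (hD : FrobStatement) : FrobFiniteStatement := by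
  classical
  intro L _ _ _ σ S
  choose BA hBA using fun H : Subgroup (L ≃ₐ[ℚ] L) => hA L H
  obtain ⟨BD, hBD⟩ := hD L
  set S' : Finset ℕ := S ∪ BD ∪ Finset.univ.biUnion BA with hS'
  set T : Finset Nat.Primes := S'.subtype Nat.Prime with hT
  have hTmem : ∀ p : Nat.Primes, p ∉ T → (p : ℕ) ∉ S' := fun p hp h =>
    hp (Finset.mem_subtype.mpr h)
  -- the sequences
  set u : Subgroup (L ≃ₐ[ℚ] L) → Nat.Primes → ℝ :=
    fun Y p => if (p : ℕ) ∈ S' then 0 else (vCount L Y (p : ℕ) : ℝ) with hu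
  have hw : ∀ H : Subgroup (L ≃ₐ[ℚ] L),
      Asymp (fun p => ∑ Y ∈ (Finset.univ : Finset (Subgroup (L ≃ₐ[ℚ] L))).filter (fun Y => Y ≤ H),
        u Y p) (Nat.card H) := by
    intro H
    have h1 := (asymp_primeCount hZ hB0 (IntermediateField.fixedField H)).const_mul
      (Nat.card H : ℝ)
    rw [mul_one] at h1
    refine h1.congr_off_finite T fun p hp => ?_
    have hpS := hTmem p hp
    have hpBA : (p : ℕ) ∉ BA H := fun h =>
      hpS (Finset.mem_union_right _ (Finset.mem_biUnion.mpr ⟨H, Finset.mem_univ _, h⟩))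
    have e := hBA H p p.2 hpBA
    rw [decompWeight_eq_sum_vCount L p.2 H] at e
    have e' : (Nat.card H : ℝ) * (primeCount (IntermediateField.fixedField H) (p : ℕ) : ℝ) =
        ((∑ Y ∈ (Finset.univ : Finset (Subgroup (L ≃ₐ[ℚ] L))).filter (fun Y => Y ≤ H),
          vCount L Y p : ℕ) : ℝ) := by
      rw [← e]
      push_cast
      ring
    rw [e']
    push_cast
    refine Finset.sum_congr rfl fun Y _ => ?_
    simp only [hu, if_neg hpS]
  -- induction over subgroups
  have hmain : ∀ H : Subgroup (L ≃ₐ[ℚ] L), Asymp (u H) (genCount L H) := by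
    intro H
    induction H using WellFoundedLT.induction with
    | ind H ih =>
      have hsplit : (Finset.univ : Finset (Subgroup (L ≃ₐ[ℚ] L))).filter (fun Y => Y ≤ H) =
          insert H ((Finset.univ : Finset (Subgroup (L ≃ₐ[ℚ] L))).filter (fun Y => Y < H)) := by
        ext Y
        simp only [Finset.mem_filter, Finset.mem_univ, true_and, Finset.mem_insert]
        rw [le_iff_eq_or_lt]
      have hnot : H ∉ (Finset.univ : Finset (Subgroup (L ≃ₐ[ℚ] L))).filter (fun Y => Y < H) := by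
        simp
      have hlt := Asymp.sum ((Finset.univ : Finset (Subgroup (L ≃ₐ[ℚ] L))).filter (fun Y => Y < H))
        u (fun Y => (genCount L Y : ℝ)) (fun Y hY => ih Y (Finset.mem_filter.mp hY).2)
      refine ((hw H).sub hlt).congr (fun p => ?_) ?_
      · rw [hsplit, Finset.sum_insert hnot]
        ring
      · have := card_eq_sum_genCount L H
        rw [hsplit, Finset.sum_insert hnot] at this
        rw [this]
        push_cast
        ring
  -- conclusion
  have hpos : (0 : ℝ) < genCount L (Subgroup.zpowers σ) := by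
    exact_mod_cast genCount_zpowers_pos L σ
  obtain ⟨p, hp⟩ := (hmain (Subgroup.zpowers σ)).exists_ne_zero hpos
  have hpS : (p : ℕ) ∉ S' := by
    intro h
    apply hp
    simp only [hu, if_pos h]
  have hv : vCount L (Subgroup.zpowers σ) (p : ℕ) ≠ 0 := by
    intro h
    apply hp
    simp only [hu, if_neg hpS, h, Nat.cast_zero]
  have hne : ((primesAbove L (p : ℕ)).filter
      fun P => decomp L P = Subgroup.zpowers σ).Nonempty := by
    rw [← Finset.card_pos]
    unfold vCount at hv
    exact Nat.pos_of_ne_zero fun h => hv (by rw [h, zero_mul])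
  obtain ⟨P, hP⟩ := hne
  rw [Finset.mem_filter, mem_primesAbove L p.2] at hP
  obtain ⟨⟨hPprime, hpP⟩, hdec⟩ := hP
  have hpBD : (p : ℕ) ∉ BD := fun h =>
    hpS (Finset.mem_union_left _ (Finset.mem_union_right _ h))
  have hpSS : (p : ℕ) ∉ S := fun h =>
    hpS (Finset.mem_union_left _ (Finset.mem_union_left _ h))
  obtain ⟨hin, τ, hτ, hτd⟩ := hBD p p.2 hpBD P hPprime hpP
  exact ⟨p, P, τ, p.2, hpSS, hPprime, hpP, hin, hτ, by rw [← hτd, hdec]⟩

end Fermat.Agent.Lib.Cheb.H164
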